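/-
T1B (S44), brick H / slice H-FORM (helper79): the CONVERSE of the dictionary `S20/Low`
("regular differential `h • dj` of `X₀(N)/ℚbar` ⇒ cusp form with `q`-expansion `ι (h θ_j)`"), from the
dimension count of S23 (S24 + the upper bound of S21 + Riemann–Roch `dim L(div dj) = genus`).

* `exists_regular_of_qCoeff` : every `g : CuspForm (Gamma0 N) 2` whose `q`-coefficients are
  `ι (γ n)`, `γ : ℕ → ℚbar`, is `ω = h • dj` regular at every place of `FF N`, with
  `(h : ℚbar((q))) * thetaJ = ∑ γ n q^n`  (`thetaJ = θ(j) = q dj/dq`);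
* `exists_regular_of_isZCoeff` : the same in the vocabulary of `T1B/Hol13/Iface` (`IsZCoeff`, `serOf`);
* `finrank_cuspForm_eq_genus` : `dim_ℂ S₂(Γ₀(N)) = genus (FF N)` (and `= dim L(div dj)`).
-/
import Mathlib
import Fermat.Agent.S23.PreAssembly
import Fermat.Agent.S20.Low
import Fermat.Agent.S21.Assembly
import Fermat.Agent.S24
import Fermat.Agent.RR.InstPrep
import Fermat.Agent.RR.GlobAdele
import Fermat.Agent.X0.HasCanDivInst

set_option autoImplicit false
set_option synthInstance.maxHeartbeats 400000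
set_option linter.style.haveILetI false
set_option linter.unusedSectionVars false

noncomputable section

namespace Fermat.Agent.T1B.HForm79

open Module AlgebraicCurve KaehlerDifferential ModularCurve CongruenceSubgroup
open Fermat.Agent.X0 Fermat.Agent.X0.FF Fermat.Agent.RR Fermat.Agent.S20.LowDJ
open Fermat.Agent.S20.DictRank Fermat.Agent.S23

variable (N : ℕ) [NeZero N]

/-- `h • dj` is regular at every place of `FF N / ℚbar`. -/
def IsRegDJ (h : FF N) : Prop :=
  ∀ v : Place Kbar (FF N), 0 ≤ v.ordDifferential (h • D Kbar (FF N) (jF N))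

/-- The power series `∑ γ n q^n` as a Laurent series. -/
def serK (γ : ℕ → Kbar) : LaurentSeries Kbar :=
  HahnSeries.ofPowerSeries ℤ Kbar (PowerSeries.mk γ)

theorem serK_coeff_natCast (γ : ℕ → Kbar) (n : ℕ) : (serK γ).coeff (n : ℤ) = γ n := by
  rw [serK, HahnSeries.ofPowerSeries_apply_coeff, PowerSeries.coeff_mk]

theorem serK_coeff_of_neg (γ : ℕ → Kbar) {k : ℤ} (hk : k < 0) : (serK γ).coeff k = 0 := by
  rw [serK]
  exact ModularCurve.ofPowerSeries_coeff_of_neg _ hk

/-- A Laurent series without negative coefficients whose `n`-th coefficients are `γ n`. -/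
theorem eq_serK_of_coeff {s : LaurentSeries Kbar} {γ : ℕ → Kbar}
    (hneg : ∀ k : ℤ, k < 0 → s.coeff k = 0) (hn : ∀ n : ℕ, s.coeff (n : ℤ) = γ n) :
    s = serK γ := by
  ext k
  rcases lt_or_ge k 0 with hk | hk
  · rw [hneg k hk, serK_coeff_of_neg γ hk]
  · obtain ⟨n, rfl⟩ := Int.eq_ofNat_of_zero_le hk
    rw [hn, serK_coeff_natCast]

/-- the dimension count of S23: `dim S₂(Γ₀(N)) ≤ dim L(div dj)`. -/
theorem finrank_cuspForm_le (hx : FF.IsGen Kbar (jF N))
    [HasCanonicalDivisor (K := Kbar) (F := FF N)] :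
    finrank ℂ (CuspForm (Gamma0 N) 2) ≤
      finrank Kbar (riemannRochSpace (canonicalDivisorOf (FF.D_ne_zero hx))) := by
  have hgenus := InstPrep.finrank_L_dx_eq_genus hx (GlobAdele.dualityResidueData hx)
  have hS24 := Fermat.Agent.S24.result N
  have hup := Fermat.Agent.S21.Assembly.finrank_le_genusFormula N
  rw [hgenus]
  have : (finrank ℂ (CuspForm (Gamma0 N) 2) : ℚ) ≤ (genus Kbar (FF N) : ℚ) := by
    rw [hS24]; exact hup
  exact_mod_cast this

/-- **H-FORM.** Every weight `2` cusp form on `Γ₀(N)` with `q`-coefficients in `ι(ℚbar)` is a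
regular differential `h • dj` of `FF N`, and `(h : ℚbar((q))) * θ(j)` is its `q`-expansion. -/
theorem exists_regular_of_qCoeff (g : CuspForm (Gamma0 N) 2) (γ : ℕ → Kbar)
    (hγ : ∀ n : ℕ, ModularFormClass.qCoeff g n = iotaK (γ n)) :
    ∃ h : FF N, IsRegDJ N h ∧ ((h : FF N) : LaurentSeries Kbar) * thetaJ = serK γ := by
  classical
  have hx : FF.IsGen Kbar (jF N) := HasCanDivInst.isGen N
  haveI : HasCanonicalDivisor (K := Kbar) (F := FF N) := HasCanDivInst.hasCanonicalDivisor N
  haveI : FiniteDimensional ℂ (CuspForm (Gamma0 N) 2) := Fermat.Agent.S21.Assembly.finite_cusp N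
  set W : Divisor Kbar (FF N) := canonicalDivisorOf (FF.D_ne_zero hx) with hWdef
  have hW : ∀ v : Place Kbar (FF N), W v = v.ordDifferential (D Kbar (FF N) (jF N)) :=
    fun v => canonicalDivisorOf_apply (FF.D_ne_zero hx) v
  haveI : FiniteDimensional Kbar (riemannRochSpace W) := InstPrep.finiteDimensional_L_isGen hx _
  haveI := RegSpace.finiteDimensional_regE N W
  have hdim : finrank ℂ (CuspForm (Gamma0 N) 2) ≤ finrank Kbar (riemannRochSpace W) :=
    finrank_cuspForm_le N hx
  -- the elements of `regE` are regular, and LOW applies to them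
  have hreg : ∀ s ∈ RegSpace.regE N W, ∃ h : FF N, IsRegDJ N h ∧ (h : LaurentSeries Kbar) = s := by
    intro s hs
    obtain ⟨h, hh, rfl⟩ := (RegSpace.mem_regE_iff N W _).mp hs
    exact ⟨h, (GaloisReg.mem_riemannRochSpace_iff_regular hx W hW h).mp hh, rfl⟩
  have hLOW : ∀ s ∈ RegSpace.regE N W,
      (∀ k : ℤ, k < 0 → (s * thetaJ).coeff k = 0) ∧
      ∃ f : CuspForm (Gamma0 N) 2, ∀ n : ℕ,
        ModularFormClass.qCoeff f n = iotaK ((s * thetaJ).coeff (n : ℤ)) := by
    intro s hs
    obtain ⟨h, hh, rfl⟩ := hreg s hs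
    obtain ⟨f, hf, hneg⟩ := Fermat.Agent.S20.Low.exists_cuspForm_of_regular_full N h hh
    exact ⟨hneg, f, hf⟩
  set E : Submodule Kbar (LaurentSeries Kbar) := RegSpace.regE N W with hE
  set c : E →ₗ[Kbar] (ℕ → Kbar) := (coeffNat thetaJ).domRestrict E with hc
  have hcinj : Function.Injective c :=
    coeffNat_domRestrict_injective thetaJ_ne_zero E (fun s hs => (hLOW s hs).1)
  set V : Submodule Kbar (ℕ → Kbar) := LinearMap.range c with hVdef
  haveI : FiniteDimensional Kbar V := by
    rw [hVdef]; infer_instance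
  have hVdim : finrank Kbar V = finrank Kbar (riemannRochSpace W) := by
    rw [← RegSpace.finrank_regE N W]
    exact (LinearEquiv.finrank_eq (LinearEquiv.ofInjective c hcinj)).symm
  -- `γ ∈ V`
  have hγV : γ ∈ V := by
    by_contra hγn
    set d := finrank Kbar V with hd
    let b := Module.finBasis Kbar V
    have hbli : LinearIndependent Kbar (fun i : Fin d => ((b i : V) : ℕ → Kbar)) :=
      b.linearIndependent.map' V.subtype (Submodule.ker_subtype V)
    have hspan : Submodule.span Kbar (Set.range fun i : Fin d => ((b i : V) : ℕ → Kbar)) = V := by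
      have h1 := b.span_eq
      have h2 := congrArg (Submodule.map V.subtype) h1
      rw [Submodule.map_span, Submodule.map_subtype_top, ← Set.range_comp] at h2
      exact h2
    have hli : LinearIndependent Kbar
        (Fin.cons γ (fun i : Fin d => ((b i : V) : ℕ → Kbar)) : Fin (d + 1) → ℕ → Kbar) := by
      rw [linearIndependent_finCons]
      exact ⟨hbli, by rw [hspan]; exact hγn⟩
    have hliC := Fermat.Agent.S20.IndepBaseChange.linearIndependent_map iotaK hli
    -- the corresponding forms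
    have hf : ∀ i : Fin d, ∃ f : CuspForm (Gamma0 N) 2, ∀ n : ℕ,
        ModularFormClass.qCoeff f n = iotaK (((b i : V) : ℕ → Kbar) n) := by
      intro i
      obtain ⟨s, hs⟩ := (b i).2
      obtain ⟨f, hf⟩ := (hLOW (s : LaurentSeries Kbar) s.2).2
      refine ⟨f, fun n => ?_⟩
      rw [hf n, ← hs]
      rfl
    choose f hfq using hf
    have hcomp : (Fermat.Agent.S49.qCoeffLin N) ∘
        (Fin.cons g f : Fin (d + 1) → CuspForm (Gamma0 N) 2) =
        fun i => fun n => iotaK ((Fin.cons γ (fun i : Fin d => ((b i : V) : ℕ → Kbar)) :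
          Fin (d + 1) → ℕ → Kbar) i n) := by
      funext i n
      refine Fin.cases ?_ (fun j => ?_) i
      · simpa using hγ n
      · simpa using hfq j n
    have hfli : LinearIndependent ℂ (Fin.cons g f : Fin (d + 1) → CuspForm (Gamma0 N) 2) :=
      LinearIndependent.of_comp (Fermat.Agent.S49.qCoeffLin N) (hcomp ▸ hliC)
    have h1 := hfli.fintype_card_le_finrank
    rw [Fintype.card_fin] at h1
    omega
  obtain ⟨s, hs⟩ := hγV
  obtain ⟨h, hh, hhs⟩ := hreg (s : LaurentSeries Kbar) s.2
  refine ⟨h, hh, eq_serK_of_coeff ?_ ?_⟩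
  · rw [hhs]; exact (hLOW (s : LaurentSeries Kbar) s.2).1
  · intro n
    rw [hhs, ← hs]
    rfl

/-- uniqueness of `h`. -/
theorem regular_unique {h h' : FF N} {s : LaurentSeries Kbar}
    (hh : ((h : FF N) : LaurentSeries Kbar) * thetaJ = s)
    (hh' : ((h' : FF N) : LaurentSeries Kbar) * thetaJ = s) : h = h' := by
  apply Subtype.ext
  exact mul_right_cancel₀ thetaJ_ne_zero (hh.trans hh'.symm)

/-- **`dim S₂(Γ₀(N)) = dim L(div dj)`.** -/
theorem finrank_cuspForm_eq_finrank_L (hx : FF.IsGen Kbar (jF N))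
    [HasCanonicalDivisor (K := Kbar) (F := FF N)] :
    finrank ℂ (CuspForm (Gamma0 N) 2) =
      finrank Kbar (riemannRochSpace (canonicalDivisorOf (FF.D_ne_zero hx))) := by
  classical
  haveI : FiniteDimensional ℂ (CuspForm (Gamma0 N) 2) := Fermat.Agent.S21.Assembly.finite_cusp N
  refine le_antisymm (finrank_cuspForm_le N hx) ?_
  set W : Divisor Kbar (FF N) := canonicalDivisorOf (FF.D_ne_zero hx) with hWdef
  have hW : ∀ v : Place Kbar (FF N), W v = v.ordDifferential (D Kbar (FF N) (jF N)) :=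
    fun v => canonicalDivisorOf_apply (FF.D_ne_zero hx) v
  haveI : FiniteDimensional Kbar (riemannRochSpace W) := InstPrep.finiteDimensional_L_isGen hx _
  haveI := RegSpace.finiteDimensional_regE N W
  have hLOW : ∀ s ∈ RegSpace.regE N W,
      (∀ k : ℤ, k < 0 → (s * thetaJ).coeff k = 0) ∧
      ∃ f : CuspForm (Gamma0 N) 2, ∀ n : ℕ,
        ModularFormClass.qCoeff f n = iotaK ((s * thetaJ).coeff (n : ℤ)) := by
    intro s hs
    obtain ⟨h, hh, rfl⟩ := (RegSpace.mem_regE_iff N W _).mp hs
    have hreg := (GaloisReg.mem_riemannRochSpace_iff_regular hx W hW h).mp hh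
    obtain ⟨f, hf, hneg⟩ := Fermat.Agent.S20.Low.exists_cuspForm_of_regular_full N h hreg
    exact ⟨hneg, f, hf⟩
  set E : Submodule Kbar (LaurentSeries Kbar) := RegSpace.regE N W with hE
  set c : E →ₗ[Kbar] (ℕ → Kbar) := (coeffNat thetaJ).domRestrict E with hc
  have hcinj : Function.Injective c :=
    coeffNat_domRestrict_injective thetaJ_ne_zero E (fun s hs => (hLOW s hs).1)
  set d := finrank Kbar E with hd
  let b := Module.finBasis Kbar E
  have hbli : LinearIndependent Kbar (fun i : Fin d => c (b i)) :=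
    b.linearIndependent.map' c (LinearMap.ker_eq_bot.mpr hcinj)
  have hliC := Fermat.Agent.S20.IndepBaseChange.linearIndependent_map iotaK hbli
  have hf : ∀ i : Fin d, ∃ f : CuspForm (Gamma0 N) 2, ∀ n : ℕ,
      ModularFormClass.qCoeff f n = iotaK (c (b i) n) := by
    intro i
    obtain ⟨f, hf⟩ := (hLOW ((b i : E) : LaurentSeries Kbar) (b i).2).2
    exact ⟨f, fun n => by rw [hf n]; rfl⟩
  choose f hfq using hf
  have hcomp : (Fermat.Agent.S49.qCoeffLin N) ∘ f = fun i => fun n => iotaK (c (b i) n) := by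
    funext i n
    exact hfq i n
  have hfli : LinearIndependent ℂ f :=
    LinearIndependent.of_comp (Fermat.Agent.S49.qCoeffLin N) (hcomp ▸ hliC)
  have h1 := hfli.fintype_card_le_finrank
  rw [Fintype.card_fin] at h1
  rw [← RegSpace.finrank_regE N W]
  exact h1

/-- **`dim_ℂ S₂(Γ₀(N)) = genus (FF N)`.** -/
theorem finrank_cuspForm_eq_genus [HasCanonicalDivisor (K := Kbar) (F := FF N)] :
    finrank ℂ (CuspForm (Gamma0 N) 2) = genus Kbar (FF N) := by
  have hx : FF.IsGen Kbar (jF N) := HasCanDivInst.isGen N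
  rw [finrank_cuspForm_eq_finrank_L N hx]
  exact InstPrep.finrank_L_dx_eq_genus hx (GlobAdele.dualityResidueData hx)

end Fermat.Agent.T1B.HForm79
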