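/-
T1B (S44), brick H / slice H-FORM (helper79): `Dict.exists_regular_of_qCoeff` in the vocabulary of
`T1B/Hol13/Iface` (`IsZCoeff`, `serOf`).
-/
import Mathlib
import Fermat.Agent.T1B.HForm79.Dict
import Fermat.Agent.T1B.Hol13.Iface

set_option autoImplicit false
set_option synthInstance.maxHeartbeats 400000

noncomputable section

namespace Fermat.Agent.T1B.HForm79

open AlgebraicCurve CongruenceSubgroup Fermat.Agent.X0 Fermat.Agent.S20.LowDJ
open Fermat.Agent.T1B.Hol13

variable (N : ℕ) [NeZero N]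

theorem serK_intCast (c : ℕ → ℤ) : serK (fun n => ((c n : ℤ) : Kbar)) = serOf Kbar c := rfl

/-- **H-FORM, integral form.** A cusp form with integral `q`-expansion `∑ c n q^n` is a regular
differential `h • dj`, and `(h : ℚbar((q))) * θ(j) = ∑ (c n : ℚbar) q^n`. -/
theorem exists_regular_of_isZCoeff (g : CuspForm (Gamma0 N) 2) (c : ℕ → ℤ) (hc : IsZCoeff g c) :
    ∃ h : FF N, IsRegDJ N h ∧ ((h : FF N) : LaurentSeries Kbar) * thetaJ = serOf Kbar c := by
  obtain ⟨h, hh, hs⟩ := exists_regular_of_qCoeff N g (fun n => ((c n : ℤ) : Kbar))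
    (fun n => by rw [hc n, map_intCast])
  exact ⟨h, hh, hs⟩

end Fermat.Agent.T1B.HForm79
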