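/-
T1B (S44), brick H / slice H-FORM (helper79): the slice `(P-A)` of `T1B/Hol13/Plan` from the
residue slice `RES1` alone, through `HForm79.exists_regular_of_isZCoeff`.

NB: the Prop `Hol13.FORM N` of `Plan.lean` quantifies over ALL cusp forms `g` and is therefore FALSE
as soon as `S₂(Γ₀(N)) ≠ 0` (take `g = π • g₀`: its `q`-coefficients are not in `ι(ℚbar)`); the correct
statements are `formZ` (integral `q`-expansion) / `Dict.exists_regular_of_qCoeff` (coefficients in
`ι(ℚbar)`), and `(P-A)` only needs those.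
-/
import Mathlib
import Fermat.Agent.T1B.HForm79.Z
import Fermat.Agent.T1B.Hol13.Plan

set_option autoImplicit false
set_option synthInstance.maxHeartbeats 400000

noncomputable section

namespace Fermat.Agent.T1B.HForm79

open AlgebraicCurve CongruenceSubgroup ModularFormClass Fermat.Agent.X0 Fermat.Agent.S20.LowDJ
open Fermat.Agent.T1B.Hol13

variable (N : ℕ) [NeZero N]

/-- **H-FORM in the shape of `Hol13.FORM`**, for cusp forms with integral `q`-expansion. -/
theorem formZ (g : CuspForm (Gamma0 N) 2) (c : ℕ → ℤ) (hc : IsZCoeff g c) :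
    ∃ h : FF N,
      (∀ v : Place Kbar (FF N),
        0 ≤ v.ordDifferential (h • KaehlerDifferential.D Kbar (FF N) (jF N))) ∧
      ∀ n : ℕ, qCoeff g n = iotaK (((h : LaurentSeries Kbar) * thetaJ).coeff n) := by
  obtain ⟨h, hh, hs⟩ := exists_regular_of_isZCoeff N g c hc
  refine ⟨h, hh, fun n => ?_⟩
  rw [hs, serOf_coeff_natCast, hc n, map_intCast]

/-- **(P-A) from (H-RES1).** -/
theorem pa_of_res1 (hR : RES1 N) : PA N := by
  intro g c hc f hf
  obtain ⟨h, hh, hs⟩ := exists_regular_of_isZCoeff N g c hc
  rw [← hs]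
  exact hR h f hh hf

end Fermat.Agent.T1B.HForm79
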