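/-
T1B (S44), brick H / slice H-FORM (helper79): the Laurent series `S20.LowDJ.thetaJ` (the `q`-expansion
of `D j = -E₄² E₆ / Δ`, used by the dictionary `S20/Low`) IS `θ(j) = q dj/dq`, `θ = IG/PR/Theta20.theta`.
-/
import Mathlib
import Fermat.Agent.S20.LowDJ
import Fermat.Agent.X0.RootsK
import Fermat.Agent.X0.LevelOneRational
import Fermat.Agent.IG.PR.Theta20

set_option autoImplicit false

noncomputable section

namespace Fermat.Agent.T1B.HForm79

open Fermat.Agent.X0 Fermat.Agent.S20.LowDJ Fermat.Agent.IG.PR.Theta20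

/-- `thetaJ = θ(j)` for the formal `j ∈ ℚbar((q))`. -/
theorem thetaJ_eq_theta_jqK : thetaJ = theta jqK := by
  ext k
  rw [theta_coeff, jqK_eq_laurentOf, thetaJ, lor_laurentOf_coeff, lor_laurentOf_coeff]
  split_ifs with h
  · obtain ⟨n, hn⟩ := Int.eq_ofNat_of_zero_le h
    rw [hn, Int.toNat_natCast, thetaNumK, PowerSeries.coeff_mk]
    congr 1
    have hk : k = (n : ℤ) - 1 := by push_cast at hn; omega
    rw [hk]
    push_cast
    ring
  · rw [mul_zero]

/-- `thetaJ = θ(j)` for `j = jF N ∈ FF N ⊆ ℚbar((q))`. -/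
theorem thetaJ_eq_theta_jF (N : ℕ) [NeZero N] :
    thetaJ = theta ((jF N : FF N) : LaurentSeries Kbar) := by
  rw [coe_jF N, thetaJ_eq_theta_jqK]

end Fermat.Agent.T1B.HForm79
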