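/-
T1B (S44), brick H (helper79): **the slice (P-A) of `T1B/Hol13/Plan`, unconditionally**:
`pa N : Hol13.PA N` = `HForm79.pa_of_res1` (the dictionary "integral cusp form = regular `h • dj`")
applied to helper49's residue slice `HRes49.res1 N : Hol13.RES1 N`.
-/
import Mathlib
import Fermat.Agent.T1B.HForm79.PA
import Fermat.Agent.T1B.HRes49.Res12

set_option autoImplicit false

namespace Fermat.Agent.T1B.HForm79

/-- **(P-A)**: the `q`-expansion of a weight `2` cusp form on `Γ₀(N)` with integral coefficients is
orthogonal (for the residue pairing `coeff₀ (x y)`) to every `f ∈ FF N` regular away from `∞`. -/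
theorem pa (N : ℕ) [NeZero N] : Fermat.Agent.T1B.Hol13.PA N :=
  pa_of_res1 N (Fermat.Agent.T1B.HRes49.res1 N)

end Fermat.Agent.T1B.HForm79
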