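/-
T1B (S44), brick H (helper79): `Hol13.gDim N = dim_ℂ S₂(Γ₀(N))` is the genus `genusFF ℚbar (FF N)`
(`= dim H¹(0)`, the genus used by `RR/RRMain.riemann_roch` and by `HSemi32/Gaps.exists_dependent_gap`).
-/
import Mathlib
import Fermat.Agent.T1B.HForm79.Dict
import Fermat.Agent.T1B.Hol13.Plan
import Fermat.Agent.RR.RRMain

set_option autoImplicit false
set_option synthInstance.maxHeartbeats 400000
set_option linter.style.haveILetI false

noncomputable section

namespace Fermat.Agent.T1B.HForm79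

open AlgebraicCurve CongruenceSubgroup Fermat.Agent.X0 Fermat.Agent.RR

variable (N : ℕ) [NeZero N]

/-- `dim_ℂ S₂(Γ₀(N)) = genusFF ℚbar (FF N)`. -/
theorem finrank_cuspForm_eq_genusFF :
    Module.finrank ℂ (CuspForm (Gamma0 N) 2) = genusFF Kbar (FF N) := by
  have hx : FF.IsGen Kbar (jF N) := HasCanDivInst.isGen N
  haveI : HasCanonicalDivisor (K := Kbar) (F := FF N) := HasCanDivInst.hasCanonicalDivisor N
  rw [finrank_cuspForm_eq_genus N, RRMain.genus_eq_genusFF hx]

/-- `Hol13.gDim N = genusFF ℚbar (FF N)`. -/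
theorem gDim_eq_genusFF : Fermat.Agent.T1B.Hol13.gDim N = genusFF Kbar (FF N) :=
  finrank_cuspForm_eq_genusFF N

end Fermat.Agent.T1B.HForm79
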