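/-
T1B (S44), brick H (helper79): **the characteristic zero slice `Hol13.PC0 N`** (Riemann's inequality at
`∞`: any `g + 1` Laurent series over `ℚbar` are dependent modulo `ℚbar[[q]] +` functions regular away
from `∞`, `g = dim S₂(Γ₀(N))`) from helper32's `HSemi32.exists_dependent_gap` (at most `genusFF` gaps)
and `gDim N = genusFF ℚbar (FF N)` (`HForm79.gDim_eq_genusFF`).
-/
import Mathlib
import Fermat.Agent.T1B.HForm79.GenusFF
import Fermat.Agent.T1B.HSemi32.Gaps
import Fermat.Agent.MW.NCA61.InfPlace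

set_option autoImplicit false
set_option synthInstance.maxHeartbeats 400000
set_option linter.style.haveILetI false

noncomputable section

namespace Fermat.Agent.T1B.HForm79

open AlgebraicCurve CongruenceSubgroup HahnSeries ModularCurve
open Fermat.Agent.X0 Fermat.Agent.RR Fermat.Agent.MW.NCA61.InfPlace
open Fermat.Agent.T1B.Hol13 Fermat.Agent.T1B.HSemi32

/-- **(H-GAP) = `Hol13.PC0 N`.** -/
theorem pc0 (N : ℕ) [NeZero N] : PC0 N := by
  have hx : FF.IsGen Kbar (jF N) := HasCanDivInst.isGen N
  haveI : HasCanonicalDivisor (K := Kbar) (F := FF N) := HasCanDivInst.hasCanonicalDivisor N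
  have hord : ∀ f : FF N, f ≠ 0 →
      (inftyPlace N).ord f = ((modularFunctionFieldBar N).val f).order :=
    fun f hf => inftyPlace_ord N hf
  have key : ∀ g : ℕ, g = genusFF Kbar (FF N) → ∀ x : Fin (g + 1) → LaurentSeries Kbar,
      ∃ c : Fin (g + 1) → Kbar, c ≠ 0 ∧ ∃ f : FF N, RegOff N f ∧
        ∀ n : ℤ, n < 0 → (∑ i, c i • x i - (f : LaurentSeries Kbar)).coeff n = 0 := by
    rintro g rfl x
    obtain ⟨c, hc, h, hh, f, hf, hsum⟩ :=
      exists_dependent_gap hx (modularFunctionFieldBar N).val (inftyPlace N) hord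
        (by rw [Fintype.card_fin]; exact Nat.lt_succ_self _) x
    refine ⟨c, hc, f, hf, fun n hn => ?_⟩
    rw [hsum]
    show (h + (f : LaurentSeries Kbar) - (f : LaurentSeries Kbar)).coeff n = 0
    rw [add_sub_cancel_right]
    exact hh n hn
  exact key (gDim N) (gDim_eq_genusFF N)

end Fermat.Agent.T1B.HForm79
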