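/-
T1B (S44), brick H (helper79): **(H-RES1) from (RESINF)** — the glue between the residue theorem of
the `RR/` library and the slice `Hol13.RES1`.

`RESINF N` : `res_∞ (x • dj) = coeff₀ (x · θ(j))` for every `x ∈ FF N` (owner: H-RES).
Then for `h • dj` regular and `f` regular away from `∞`: `(f h) • dj` is regular away from `∞`, so the
residue theorem `∑_v res_v = 0` gives `res_∞ ((f h) • dj) = 0`, i.e. `coeff₀ (h θ(j) f) = 0`.
Consequently `pa_of_resinf : RESINF N → Hol13.PA N`.
-/
import Mathlib
import Fermat.Agent.T1B.HForm79.PA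
import Fermat.Agent.RR.ResidueGlob
import Fermat.Agent.RR.LocalResMain
import Fermat.Agent.MW.NCA61.InfPlace
import Fermat.Agent.X0.HasCanDivInst

set_option autoImplicit false
set_option synthInstance.maxHeartbeats 400000
set_option linter.style.haveILetI false

noncomputable section

namespace Fermat.Agent.T1B.HForm79

open AlgebraicCurve KaehlerDifferential CongruenceSubgroup
open Fermat.Agent.X0 Fermat.Agent.X0.FF Fermat.Agent.RR Fermat.Agent.S20.LowDJ
open Fermat.Agent.MW.NCA61.InfPlace Fermat.Agent.T1B.Hol13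

variable (N : ℕ) [NeZero N]

/-- **(RESINF)**: the residue at the `q`-expansion place `∞` of `x • dj` is the constant
coefficient of `x · θ(j)`. -/
def RESINF : Prop :=
  ∀ x : FF N, LocalResMain.residue (HasCanDivInst.isGen N) (inftyPlace N) (x • D Kbar (FF N) (jF N))
    = (((x : FF N) : LaurentSeries Kbar) * thetaJ).coeff 0

/-- a differential `g • ω`, `ω` regular at `v`, `g ∈ O_v`, is regular at `v`. -/
theorem ordDifferential_smul_nonneg (v : Place Kbar (FF N)) {g : FF N}
    (hg : g ∈ v.toValuationSubring) {ω : Ω[FF N⁄Kbar]} (hω : 0 ≤ v.ordDifferential ω) :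
    0 ≤ v.ordDifferential (g • ω) := by
  have hx := HasCanDivInst.isGen N
  haveI := dCoordGenerates hx v
  haveI := nontrivial_kaehler hx
  by_cases hg0 : g = 0
  · rw [hg0, zero_smul, Place.ordDifferential, v.differentialCoeff_zero, v.ord_zero]
  by_cases hω0 : ω = 0
  · rw [hω0, smul_zero, Place.ordDifferential, v.differentialCoeff_zero, v.ord_zero]
  rw [ordDifferential_smul' hx v hg0 hω0]
  have := (ffp_mem_iff_ord_nonneg v).mp hg
  omega

/-- **(H-RES1) from (RESINF).** -/
theorem res1_of_resinf (hInf : RESINF N) : RES1 N := by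
  intro h f hreg hf
  have hx := HasCanDivInst.isGen N
  set ω : Ω[FF N⁄Kbar] := (f * h) • D Kbar (FF N) (jF N) with hω
  have hzero : ∀ v : Place Kbar (FF N), v ≠ inftyPlace N → LocalResMain.residue hx v ω = 0 := by
    intro v hv
    apply LocalResMain.residue_eq_zero hx v
    rw [hω, mul_smul]
    exact ordDifferential_smul_nonneg N v (hf v hv) (hreg v)
  have hsum := ResidueGlob.finsum_residue_eq_zero hx ω
  rw [finsum_eq_single _ (inftyPlace N) (fun v hv => hzero v hv)] at hsum
  rw [hω, hInf (f * h)] at hsum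
  rw [pair]
  have : ((h : FF N) : LaurentSeries Kbar) * thetaJ * ((f : FF N) : LaurentSeries Kbar)
      = (((f * h : FF N) : FF N) : LaurentSeries Kbar) * thetaJ := by
    show _ = (((f : FF N) : LaurentSeries Kbar) * ((h : FF N) : LaurentSeries Kbar)) * thetaJ
    ring
  rw [this]
  exact hsum

/-- **(P-A) from (RESINF).** -/
theorem pa_of_resinf (hInf : RESINF N) : PA N :=
  pa_of_res1 N (res1_of_resinf N hInf)

end Fermat.Agent.T1B.HForm79
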